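import Mathlib
import Fermat.Agent.H66.SS.Leaves
import Fermat.Agent.H42.KroneckerFormal

/-!
# P-SS row 702 (SS-A2-FROB, helper57): `f(t^q) = f(t)^q` in characteristic `q` for the image of
an integral series
-/

set_option autoImplicit false
set_option linter.style.haveILetI false

noncomputable section

namespace Fermat.Agent.H57.SS

open ModularCurve

/-- **(L-FROB)** Frobenius on series with coefficients in the prime field. -/
theorem frob : Fermat.Agent.H66.SS.FrobStatement := by
  intro k _ q _ hq hchar Y
  haveI : Fact q.Prime := ⟨hq⟩
  haveI := hchar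
  have h1 : coeffMap (Int.castRingHom k) Y =
      coeffMap (ZMod.castHom (dvd_refl q) k) (coeffMap (Int.castRingHom (ZMod q)) Y) := by
    rw [coeffMap_coeffMap]
    exact coeffMap_congr (RingHom.ext_int _ _) Y
  rw [h1, ← coeffMap_qExpand, ← map_pow]
  congr 1
  exact (Fermat.Agent.H42.laurent_pow_eq_qExpand q _).symm

end Fermat.Agent.H57.SS

end
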