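import Mathlib
import Fermat.Agent.H66.SS.Leaves
import Fermat.Agent.H27.KLGB.Model

/-!
# P-SS row 701 (SS-A2-DEG, helper57): `[E : K₁(x)] = ψ(N)` for the model field
-/

set_option autoImplicit false
set_option linter.style.haveILetI false

noncomputable section

namespace Fermat.Agent.H57.SS

open Fermat.Agent.H22.KL Fermat.Agent.H27.KLGB

/-- **(L-DEG)** the degree of the model field over the chart field is `ψ(N)`. -/
theorem modelFinrank (N : ℕ) [NeZero N] : Fermat.Agent.H66.SS.ModelFinrankStatement N := by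
  intro K₁ _ _ A₀ _ _ _ _ _ _ x hx
  obtain ⟨ℓ, hℓN, hℓ⟩ := Nat.exists_infinite_primes (N + 1)
  haveI : Fact ℓ.Prime := ⟨hℓ⟩
  have hnd : ¬ ℓ ∣ N := fun h => by
    have := Nat.le_of_dvd (NeZero.pos N) h
    omega
  obtain ⟨θ, P, -, hPm, hPnat, hPθ, -, -, -, hall⟩ := goodPrimitive_j_full N ℓ hnd
  obtain ⟨θE, b, -⟩ := model_basis_pow N hPm hPnat hPθ hall K₁ A₀ x hx
  rw [Module.finrank_eq_card_basis b, Fintype.card_fin]

end Fermat.Agent.H57.SS

end
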